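import Mathlib

/-!
# S36, route R, local block: in a factorial ring an element of the fraction field all of whose
prime multiplicities are divisible by `n` is a unit times an `n`-th power (Mathlib only)
-/

set_option autoImplicit false
set_option linter.unusedSectionVars false

namespace Fermat.Agent.S36R.Local

variable {A F : Type*} [CommRing A] [IsDomain A] [UniqueFactorizationMonoid A] [Field F]
  [Algebra A F] [IsFractionRing A F]

omit [UniqueFactorizationMonoid A] in
/-- uniqueness of the exponent of a prime. -/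
theorem Root_pow_le {p : A} (hp : Prime p) {c c' : ℕ} {z z' : A} (hz : ¬ p ∣ z)
    (h : p ^ c * z = p ^ c' * z') : c' ≤ c := by
  by_contra hlt
  obtain ⟨k, rfl⟩ := Nat.exists_eq_add_of_lt (not_le.mp hlt)
  apply hz
  have h1 : p ^ c * z = p ^ c * (p ^ (k + 1) * z') := by
    rw [h, ← mul_assoc, ← pow_add, add_assoc]
  have h2 := mul_left_cancel₀ (pow_ne_zero c hp.ne_zero) h1
  rw [h2, pow_succ', mul_assoc]
  exact dvd_mul_right _ _

omit [UniqueFactorizationMonoid A] in
theorem Root_pow_unique {p : A} (hp : Prime p) {c c' : ℕ} {z z' : A} (hz : ¬ p ∣ z)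
    (hz' : ¬ p ∣ z') (h : p ^ c * z = p ^ c' * z') : c = c' :=
  le_antisymm (Root_pow_le hp hz' h.symm) (Root_pow_le hp hz h)

/-- the integral case. -/
theorem Root_integral {n : ℕ} (hn : 0 < n) (w : A) :
    (∀ p : A, Prime p → ∀ (a : ℕ) (x : A), ¬ p ∣ x → w = p ^ a * x → n ∣ a) →
      ∃ (g : A) (ε : Aˣ), w = ε * g ^ n := by
  induction w using UniqueFactorizationMonoid.induction_on_coprime with
  | h0 => exact fun _ => ⟨0, 1, by rw [zero_pow hn.ne', mul_zero]⟩
  | h1 hx =>
    obtain ⟨u, rfl⟩ := hx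
    exact fun _ => ⟨1, u, by rw [one_pow, mul_one]⟩
  | hpr i hp =>
    intro H
    obtain ⟨m, rfl⟩ := H _ hp i 1 (fun h => hp.not_isUnit (isUnit_of_dvd_one h)) (mul_one _).symm
    exact ⟨_, 1, by rw [Units.val_one, one_mul, ← pow_mul, mul_comm]⟩
  | hcp hxy ihx ihy =>
    rename_i x y
    intro H
    obtain ⟨g, ε, hg⟩ := ihx (by
      intro p hp a x' hx' hx
      rcases Nat.eq_zero_or_pos a with rfl | ha
      · exact dvd_zero n
      have hpx : p ∣ x := by
        rw [hx]
        exact Dvd.dvd.mul_right (dvd_pow_self p ha.ne') _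
      have hpy : ¬ p ∣ y := fun h => hp.not_isUnit (hxy hpx h)
      refine H p hp a (x' * y) (fun h => ?_) (by rw [hx, mul_assoc])
      exact (hp.dvd_or_dvd h).elim hx' hpy)
    obtain ⟨g', ε', hg'⟩ := ihy (by
      intro p hp a y' hy' hy
      rcases Nat.eq_zero_or_pos a with rfl | ha
      · exact dvd_zero n
      have hpy : p ∣ y := by
        rw [hy]
        exact Dvd.dvd.mul_right (dvd_pow_self p ha.ne') _
      have hpx : ¬ p ∣ x := fun h => hp.not_isUnit (hxy h hpy)
      refine H p hp a (x * y') (fun h => ?_) (by rw [hy]; ring)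
      exact (hp.dvd_or_dvd h).elim hpx hy')
    exact ⟨g * g', ε * ε', by rw [hg, hg', Units.val_mul, mul_pow]; ring⟩

/-- **Leaf R1.**  `H p`: whenever `f = p ^ a x / (p ^ b y)` with `p ∤ x`, `p ∤ y`, then `n ∣ a - b`.
PROOF (one possibility).  Write `f = x₀ / y₀` (`IsFractionRing.div_surjective`), `x₀, y₀ ≠ 0`.  Prove by well founded
induction on `x₀ * y₀` for the relation `DvdNotUnit` (`WfDvdMonoid.wellFounded_dvdNotUnit`) the statement
`∀ x y ≠ 0, (H for f = x / y) → ∃ G ε, ...`.  If `x y` is a unit: `G = 1`.  Otherwise it has a prime factor `p`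
(`WfDvdMonoid.exists_irreducible_factor` + `UniqueFactorizationMonoid.irreducible_iff_prime`).  Split off the exact powers:
`x = p ^ a x'`, `y = p ^ b y'`, `p ∤ x'`, `p ∤ y'` (`exists_eq_pow_mul_and_not_dvd` with
`FiniteMultiplicity.of_prime_left`/`.of_not_isUnit`).  `H p` gives `a - b = n m`.  `x' y'` is a strict divisor of `x y`
(`a + b ≥ 1`).  `H` holds for `x' / y'`: let `p'` be prime, `x'/y' = p' ^ a' x'' / (p' ^ b' y'')`.  If `p'` is associated to `p`:
then `p' ^ a' x'' y' = p' ^ b' y'' x'` with all of `x'', y', y'', x'` prime to `p'`, so `a' = b'`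
(compare `emultiplicity`, or cancel `p' ^ min`).  If not, `p' ∤ p ^ k`, and `f = p' ^ a' (x'' p ^ a) / (p' ^ b' (y'' p ^ b))`, so
`H p'` for `f` applies.  Finally `f = p ^ (n m) ε G' ^ n = ε (p ^ m G') ^ n` (`zpow`).
ALTERNATIVE: `f = u ∏ p ^ e_p` over `normalizedFactors`.
(The proof below: `f = x / y = x y ^ (n - 1) / y ^ n`, and `x y ^ (n - 1) ∈ A` has all its multiplicities divisible by `n`;
`Root_integral`.) -/
theorem exists_root_of_ufd {n : ℕ} (hn : 0 < n) (f : F) (hf : f ≠ 0)
    (H : ∀ p : A, Prime p → ∀ (a b : ℕ) (x y : A), ¬ p ∣ x → ¬ p ∣ y →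
      f * algebraMap A F (p ^ b * y) = algebraMap A F (p ^ a * x) → (n : ℤ) ∣ (a : ℤ) - b) :
    ∃ (G : F) (ε : Aˣ), G ≠ 0 ∧ f = algebraMap A F ε * G ^ n := by
  obtain ⟨x, y, hy0, rfl⟩ := IsFractionRing.div_surjective (A := A) f
  have hy : y ≠ 0 := nonZeroDivisors.ne_zero hy0
  have hinj : Function.Injective (algebraMap A F) := IsFractionRing.injective A F
  have hyF : algebraMap A F y ≠ 0 := fun h => hy (hinj (by rw [h, map_zero]))
  have hx : x ≠ 0 := by
    rintro rfl
    rw [map_zero, zero_div] at hf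
    exact hf rfl
  obtain ⟨k, rfl⟩ : ∃ k, n = k + 1 := ⟨n - 1, by omega⟩
  obtain ⟨g, ε, hg⟩ := Root_integral (A := A) hn (x * y ^ k) (by
    intro p hp c z hz hw
    obtain ⟨a, x', hx', hxa⟩ := WfDvdMonoid.max_power_factor hx hp.irreducible
    obtain ⟨b, y', hy', hyb⟩ := WfDvdMonoid.max_power_factor hy hp.irreducible
    have h1 := H p hp a b x' y' hx' hy' (by
      rw [← hxa, ← hyb, div_mul_cancel₀ _ hyF])
    have h2 : p ^ c * z = p ^ (a + k * b) * (x' * y' ^ k) := by
      rw [← hw, hxa, hyb, mul_pow, pow_add, ← pow_mul, mul_comm b k]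
      ring
    have h3 : ¬ p ∣ x' * y' ^ k := fun h =>
      (hp.dvd_or_dvd h).elim hx' (fun h' => hy' (hp.dvd_of_dvd_pow h'))
    have h4 : c = a + k * b := Root_pow_unique hp hz h3 h2
    rw [h4, ← Int.natCast_dvd_natCast]
    have h5 : ((a + k * b : ℕ) : ℤ) = ((a : ℤ) - b) + ((k + 1 : ℕ) : ℤ) * b := by
      push_cast; ring
    rw [h5]
    exact dvd_add h1 (dvd_mul_right _ _))
  have hg0 : g ≠ 0 := by
    rintro rfl
    rw [zero_pow hn.ne', mul_zero] at hg
    exact (mul_ne_zero hx (pow_ne_zero k hy)) hg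
  have hgF : algebraMap A F g ≠ 0 := fun h => hg0 (hinj (by rw [h, map_zero]))
  refine ⟨algebraMap A F g / algebraMap A F y, ε, div_ne_zero hgF hyF, ?_⟩
  have h6 := congrArg (algebraMap A F) hg
  rw [map_mul, map_mul, map_pow, map_pow] at h6
  rw [div_pow, ← mul_div_assoc, ← h6, pow_succ', mul_div_mul_right _ _ (pow_ne_zero k hyF)]

end Fermat.Agent.S36R.Local
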