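import Fermat.Agent.S36R.Local.Vert
import Fermat.Agent.S36R.Local.Root

/-!
# S36, route R, local block: `f = ε G ^ n` at every closed point of the special fibre
-/

set_option autoImplicit false

namespace Fermat.Agent.S36R.Local

open Inj IsLocalRing AlgebraicCurve

variable {O K F FA : Type*} [CommRing O] [Field K] [Field F] [Field FA] [Algebra K F] [Algebra K FA]
  [Algebra O F] [Algebra O K] [IsScalarTower O K F] {D : Lvl K F FA} {q : ℕ} {c : F} {R : Subring F}

section General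

variable {A : Subring F}

theorem Factor_exists_pow_mul [IsNoetherianRing A] (p : A) (hp : Prime p) (x : A) (hx : x ≠ 0) :
    ∃ (a : ℕ) (x' : A), x = p ^ a * x' ∧ ¬ p ∣ x' := by
  obtain ⟨c, hc, hc'⟩ := (FiniteMultiplicity.of_not_isUnit hp.not_isUnit hx).exists_eq_pow_mul_and_not_dvd
  exact ⟨_, c, hc, hc'⟩

theorem Factor_mem_or_inv_mem [IsNoetherianRing A] (hfrac : ∀ z : F, ∃ b ∈ A, b ≠ 0 ∧ b * z ∈ A)
    (p : A) (hp : Prime p) [(Ideal.span {p}).IsPrime] (z : F) :
    z ∈ locAt (Ideal.span {p}) ∨ z⁻¹ ∈ locAt (Ideal.span {p}) := by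
  rcases eq_or_ne z 0 with rfl | hz
  · exact Or.inl (zero_mem _)
  obtain ⟨y, hyA, hy0, hxA⟩ := hfrac z
  have hy0' : (⟨y, hyA⟩ : A) ≠ 0 := fun h => hy0 (congrArg Subtype.val h)
  have hx0' : (⟨y * z, hxA⟩ : A) ≠ 0 := fun h => mul_ne_zero hy0 hz (congrArg Subtype.val h)
  obtain ⟨a, x', hx', hpx'⟩ := Factor_exists_pow_mul p hp _ hx0'
  obtain ⟨b, y', hy', hpy'⟩ := Factor_exists_pow_mul p hp _ hy0'
  have ex : y * z = (p : F) ^ a * x' := by
    have := congrArg Subtype.val hx'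
    simpa using this
  have ey : y = (p : F) ^ b * y' := by
    have := congrArg Subtype.val hy'
    simpa using this
  have hp0 : (p : F) ≠ 0 := fun h => hp.ne_zero (Subtype.ext h)
  have hy'0 : (y' : F) ≠ 0 := by
    intro h
    apply hy0
    rw [ey, h, mul_zero]
  have hx'0 : (x' : F) ≠ 0 := by
    intro h
    apply mul_ne_zero hy0 hz
    rw [ex, h, mul_zero]
  rcases le_total b a with hab | hab
  · left
    refine ⟨y', fun h => hpy' (Ideal.mem_span_singleton.1 h), ?_⟩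
    obtain ⟨d, rfl⟩ := Nat.exists_eq_add_of_le hab
    have : (y' : F) * z = ((p ^ d * x' : A) : F) := by
      rw [ey] at ex
      have h1 : (p : F) ^ b * ((y' : F) * z) = (p : F) ^ b * ((p : F) ^ d * x') := by
        rw [← mul_assoc, ex, pow_add, mul_assoc]
      have := mul_left_cancel₀ (pow_ne_zero b hp0) h1
      rw [this]
      simp
    rw [this]
    exact (p ^ d * x' : A).2
  · right
    refine ⟨x', fun h => hpx' (Ideal.mem_span_singleton.1 h), ?_⟩
    obtain ⟨d, rfl⟩ := Nat.exists_eq_add_of_le hab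
    have : (x' : F) * z⁻¹ = ((p ^ d * y' : A) : F) := by
      rw [ey] at ex
      have h1 : (p : F) ^ a * ((p : F) ^ d * y' * z) = (p : F) ^ a * x' := by
        rw [← ex, pow_add]
        ring
      have h2 := mul_left_cancel₀ (pow_ne_zero a hp0) h1
      rw [← h2]
      push_cast
      field_simp
    rw [this]
    exact (p ^ d * y' : A).2

/-- **Leaf F1.** The local ring of a noetherian subring `A ⊆ F = Frac A` at a principal prime `(p)` is a discrete
valuation ring of `F`.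
PROOF. `B := Inj.locAt (Ideal.span {p})` (`(Ideal.span_singleton_prime hp.ne_zero).2 hp`).  `mem_or_inv_mem`: `z = x / y`
(`hfrac`), `x = p ^ a x'`, `y = p ^ b y'`, `p ∤ x', y'` (`exists_eq_pow_mul_and_not_dvd`, finite multiplicity in the noetherian
domain `A`: `FiniteMultiplicity.of_not_isUnit hp.not_unit`), so `z = p ^ a x' / (p ^ b y')` lies in `B` if `b ≤ a` and `z⁻¹ ∈ B`
otherwise.  Principal: `B` is noetherian (`isNoetherianRing_locAt`) and a valuation ring, hence Bézout: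
`IsBezout.TFAE`.  (`V.toSubring = B` gives the transfer of instances; or prove `IsNoetherianRing V` via a ring equivalence.) -/
theorem exists_dvr_of_prime [IsNoetherianRing A] (hfrac : ∀ z : F, ∃ b ∈ A, b ≠ 0 ∧ b * z ∈ A)
    (p : A) (hp : Prime p) :
    ∃ V : ValuationSubring F, IsPrincipalIdealRing V ∧ V ≠ ⊤ ∧ (∀ x : A, (x : F) ∈ V) ∧
      (∀ x : A, ¬ p ∣ x → (x : F)⁻¹ ∈ V) ∧ (∀ z ∈ V, z⁻¹ ∈ V ∨ z / (p : F) ∈ V) ∧ (p : F)⁻¹ ∉ V := by
  have hprime : (Ideal.span {p}).IsPrime := (Ideal.span_singleton_prime hp.ne_zero).2 hp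
  let V : ValuationSubring F :=
    { locAt (Ideal.span {p}) with
      mem_or_inv_mem' := Factor_mem_or_inv_mem hfrac p hp }
  have hmem : ∀ z : F, z ∈ V ↔ z ∈ locAt (Ideal.span {p}) := fun _ => Iff.rfl
  have hp0 : (p : F) ≠ 0 := fun h => hp.ne_zero (Subtype.ext h)
  have hpinv : (p : F)⁻¹ ∉ V := by
    rintro ⟨s, hs, hr⟩
    apply hs
    rw [Ideal.mem_span_singleton]
    refine ⟨⟨_, hr⟩, ?_⟩
    apply Subtype.ext
    push_cast
    field_simp
  have hnoeth : IsNoetherianRing V := isNoetherianRing_locAt (Ideal.span {p})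
  refine ⟨V, ?_, ?_, ?_, ?_, ?_, hpinv⟩
  · exact ((IsBezout.TFAE (R := V)).out 0 1).1 hnoeth
  · intro htop
    apply hpinv
    rw [htop]
    exact ValuationSubring.mem_top _
  · intro x
    exact le_locAt _ x.2
  · intro x hx
    have hx0 : (x : F) ≠ 0 := by
      intro h
      apply hx
      have : x = 0 := Subtype.ext h
      rw [this]
      exact dvd_zero p
    refine ⟨x, fun h => hx (Ideal.mem_span_singleton.1 h), ?_⟩
    rw [mul_inv_cancel₀ hx0]
    exact one_mem _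
  · rintro z ⟨s, hs, hr⟩
    by_cases hdvd : p ∣ (⟨_, hr⟩ : A)
    · right
      obtain ⟨r', hr'⟩ := hdvd
      refine ⟨s, hs, ?_⟩
      have h1 : (s : F) * z = (p : F) * r' := by
        have := congrArg Subtype.val hr'
        simpa using this
      have : (s : F) * (z / (p : F)) = r' := by
        rw [← mul_div_assoc, h1, mul_div_assoc, mul_comm, div_mul_cancel₀ _ hp0]
      rw [this]
      exact r'.2
    · left
      have hr0 : (s : F) * z ≠ 0 := by
        intro h
        apply hdvd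
        have : (⟨_, hr⟩ : A) = 0 := Subtype.ext h
        rw [this]
        exact dvd_zero p
      have hz0 : z ≠ 0 := right_ne_zero_of_mul hr0
      refine ⟨⟨_, hr⟩, fun h => hdvd (Ideal.mem_span_singleton.1 h), ?_⟩
      have : (s : F) * z * z⁻¹ = s := by
        rw [mul_assoc, mul_inv_cancel₀ hz0, mul_one]
      rw [this]
      exact s.2

end General

/-- **Leaf F2 (horizontal primes).**
PROOF. `V` from `exists_dvr_of_prime` for `A = locAt 𝔫` (`isNoetherianRing_locAt`, `hR.noeth`, `hR.chart.frac` + `le_locAt`).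
`K ⊆ V`: `q ^ k a = u ∈ O`, `algebraMap O F u ∈ R ⊆ V`, and `q⁻¹ ∈ V` because `p ∤ q`.  So `P := ⟨V, _, _, _⟩ : Place K F`.
`p` is irreducible in `V` (non unit; every non unit `z` of `V` is divisible by `p`), so `P.ord p = 1`
(`Place.adicValuation_coe_irreducible`, `Place.ord`, `WithZero.log_exp`).  `x` with `p ∤ x` is a unit of `V`:
`Place.adicValuation_coe_eq_one_iff`, so `ord = 0`. -/
theorem exists_place_of_prime (hR : D.ChartOK O q c R)
    (hK : ∀ a : K, ∃ (k : ℕ) (u : O), (q : K) ^ k * a = algebraMap O K u)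
    (𝔫 : Ideal R) [𝔫.IsPrime] (p : locAt 𝔫) (hp : Prime p) (hpq : ¬ p ∣ (q : locAt 𝔫)) :
    ∃ P : Place K F, P.ord (p : F) = 1 ∧ ∀ x : locAt 𝔫, ¬ p ∣ x → P.ord (x : F) = 0 := by
  have hn1 := hR.noeth
  have hn2 := isNoetherianRing_locAt 𝔫
  have hfrac : ∀ z : F, ∃ b ∈ locAt 𝔫, b ≠ 0 ∧ b * z ∈ locAt 𝔫 := fun z => by
    obtain ⟨b, hb, hb0, hbz⟩ := hR.chart.frac z
    exact ⟨b, le_locAt 𝔫 hb, hb0, le_locAt 𝔫 hbz⟩
  obtain ⟨V, hpid, htop, hA, hinv, hdiv, hpinv⟩ := exists_dvr_of_prime hfrac p hp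
  have hne : ∀ x : locAt 𝔫, ¬ p ∣ x → (x : F) ≠ 0 := by
    intro x hx h
    apply hx
    have : x = 0 := Subtype.ext h
    rw [this]
    exact dvd_zero p
  have hKV : ∀ a : K, algebraMap K F a ∈ V := by
    intro a
    obtain ⟨k, u, hu⟩ := hK a
    have hq : (q : F)⁻¹ ∈ V := by
      have := hinv _ hpq
      simpa using this
    have hq0 : (q : F) ≠ 0 := by
      have := hne _ hpq
      simpa using this
    have hu' : algebraMap O F u ∈ V := hA ⟨_, le_locAt 𝔫 (hR.chart.algebraMap_mem u)⟩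
    have e : algebraMap K F a = ((q : F)⁻¹) ^ k * algebraMap O F u := by
      rw [IsScalarTower.algebraMap_apply O K F, ← hu, map_mul, map_pow, map_natCast, ← mul_assoc,
        ← mul_pow, inv_mul_cancel₀ hq0, one_pow, one_mul]
    rw [e]
    exact mul_mem (pow_mem hq k) hu'
  let P : Place K F := ⟨V, hKV, htop, hpid⟩
  have hp0 : (p : F) ≠ 0 := fun h => hp.ne_zero (Subtype.ext h)
  have hunit : ∀ a : V, (a : F) ≠ 0 → (a : F)⁻¹ ∈ V → IsUnit a := by
    intro a ha0 ha
    exact IsUnit.of_mul_eq_one ⟨_, ha⟩ (Subtype.ext (mul_inv_cancel₀ ha0))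
  have hirr : Irreducible (⟨p, hA p⟩ : V) := by
    rw [irreducible_iff]
    constructor
    · intro hu
      obtain ⟨b, hb⟩ := hu.exists_right_inv
      apply hpinv
      have h1 : (p : F) * b = 1 := by
        have := congrArg Subtype.val hb
        simpa using this
      rw [← eq_inv_of_mul_eq_one_right h1]
      exact b.2
    · intro a b hab
      have hab' : (p : F) = a * b := by
        have := congrArg Subtype.val hab
        simpa using this
      have ha0 : (a : F) ≠ 0 := by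
        intro h
        rw [h, zero_mul] at hab'
        exact hp0 hab'
      have hb0 : (b : F) ≠ 0 := by
        intro h
        rw [h, mul_zero] at hab'
        exact hp0 hab'
      by_contra hcon
      push Not at hcon
      have h1 : (a : F) / p ∈ V := (hdiv a a.2).resolve_left fun h => hcon.1 (hunit a ha0 h)
      have h2 : (b : F) / p ∈ V := (hdiv b b.2).resolve_left fun h => hcon.2 (hunit b hb0 h)
      apply hpinv
      have : (p : F)⁻¹ = (a : F) / p * ((b : F) / p) := by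
        rw [div_mul_div_comm, ← hab']
        field_simp
      rw [this]
      exact mul_mem h1 h2
  refine ⟨P, P.ord_coe_irreducible (π := ⟨p, hA p⟩) hirr, ?_⟩
  intro x hx
  obtain ⟨u, hu⟩ := hunit ⟨x, hA x⟩ (hne x hx) (hinv x hx)
  have := P.ord_coe_unit u
  rw [hu] at this
  exact this

/-- **Leaf F3 (vertical primes).**
PROOF. (a) There is `i` through `𝔫` with `cen hR 𝔫 hi ≤ span {p}`: otherwise choose for every `i` through `𝔫` an `x i ∈ R_𝔫`,
`v_i (x i) < 1`, `p ∤ x i` (`x i = 1` for the other `i`); `z := ∏ i, x i ^ (q - 1)` is not divisible by `p`, and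
`z / q ∈ W i` for all `i` through `𝔫` (`hD.vert.disc`), so `z / q ∈ R_𝔫` by `locAt_sat` (`k = 1`), `p ∣ q ∣ z`: contradiction.
(b) `q = p ^ a u`, `p ∤ u`, `a ≥ 1` (`exists_eq_pow_mul_and_not_dvd`; `q ≠ 0`); `q ∈ cen` which is prime (`cen_isPrime`), and `u ∉ cen`
by (a), so `p ∈ cen`: `v_i p < 1`.  (c) `p ∤ x` ⟹ `x ∉ cen` by (a) ⟹ `v_i x = 1` (`locAt_le_W`). -/
theorem exists_vert_of_prime (hD : D.Good O q) (hR : D.ChartOK O q c R)
    (𝔫 : Ideal R) [𝔫.IsPrime] (p : locAt 𝔫) (hp : Prime p) (hpq : p ∣ (q : locAt 𝔫)) :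
    ∃ i, Thru D.W 𝔫 i ∧ (D.W i).valuation (p : F) < 1 ∧
      ∀ x : locAt 𝔫, ¬ p ∣ x → (D.W i).valuation (x : F) = 1 := by
  classical
  have hqF : algebraMap O F (q : O) = (q : F) := map_natCast _ q
  have hq0 : (q : F) ≠ 0 := hqF ▸ hD.vert.pi_ne
  have hle : ∀ i, Thru D.W 𝔫 i → ∀ x : locAt 𝔫, (D.W i).valuation (x : F) ≤ 1 := fun i hi x =>
    ((D.W i).valuation_le_one_iff _).2 (locAt_le_W hR 𝔫 hi x)
  -- (a)
  have ha : ∃ i, Thru D.W 𝔫 i ∧ ∀ x : locAt 𝔫, (D.W i).valuation (x : F) < 1 → p ∣ x := by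
    by_contra hcon
    push Not at hcon
    have key : ∀ i, ∃ x : locAt 𝔫, ¬ p ∣ x ∧
        (Thru D.W 𝔫 i → (D.W i).valuation (x : F) < 1) := by
      intro i
      by_cases hi : Thru D.W 𝔫 i
      · obtain ⟨x, hx, hpx⟩ := hcon i hi
        exact ⟨x, hpx, fun _ => hx⟩
      · exact ⟨1, fun h => hp.not_isUnit (isUnit_of_dvd_one h), fun h => absurd h hi⟩
    choose x hx hx' using key
    set z : locAt 𝔫 := ∏ i, x i ^ (q - 1) with hz
    have hpz : ¬ p ∣ z := by
      intro h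
      obtain ⟨i, -, hi⟩ := (Prime.dvd_finsetProd_iff hp _).1 h
      exact hx i (hp.dvd_of_dvd_pow hi)
    have hzW : ∀ i, Thru D.W 𝔫 i → (z : F) / q ∈ D.W i := by
      intro i hi
      rw [← (D.W i).valuation_le_one_iff, map_div₀]
      apply div_le_one_of_le₀ _ zero_le
      have h1 : z = x i ^ (q - 1) * ∏ j ∈ Finset.univ.erase i, x j ^ (q - 1) :=
        (Finset.mul_prod_erase _ _ (Finset.mem_univ i)).symm
      rw [h1, Subring.coe_mul, map_mul, SubmonoidClass.coe_pow, map_pow]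
      calc (D.W i).valuation (x i : F) ^ (q - 1) *
            (D.W i).valuation ((∏ j ∈ Finset.univ.erase i, x j ^ (q - 1) : locAt 𝔫) : F)
          ≤ (D.W i).valuation (x i : F) ^ (q - 1) * 1 := by
            gcongr
            exact hle i hi _
        _ = (D.W i).valuation (x i : F) ^ (q - 1) := mul_one _
        _ ≤ (D.W i).valuation (algebraMap O F (q : O)) := hD.vert.disc i _ (hx' i hi)
        _ = (D.W i).valuation (q : F) := by rw [hqF]
    have hmem : (z : F) / q ∈ locAt 𝔫 :=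
      locAt_sat hD hR 𝔫 _ 1 (by rw [pow_one, mul_div_cancel₀ _ hq0]; exact z.2) hzW
    apply hpz
    apply hpq.trans
    refine ⟨⟨_, hmem⟩, Subtype.ext ?_⟩
    rw [Subring.coe_mul, Subring.coe_natCast]
    exact (mul_div_cancel₀ _ hq0).symm
  obtain ⟨i, hi, hai⟩ := ha
  have hone : ∀ x : locAt 𝔫, ¬ p ∣ x → (D.W i).valuation (x : F) = 1 := fun x hx =>
    le_antisymm (hle i hi x) (not_lt.1 fun h => hx (hai x h))
  refine ⟨i, hi, ?_, hone⟩
  -- (b)
  have := hR.noeth
  have := isNoetherianRing_locAt 𝔫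
  have hqL0 : (q : locAt 𝔫) ≠ 0 := by
    intro h0
    apply hq0
    have := congrArg (Subtype.val : locAt 𝔫 → F) h0
    simpa using this
  obtain ⟨u, hu, hpu⟩ :=
    (FiniteMultiplicity.of_not_isUnit hp.not_isUnit hqL0).exists_eq_pow_mul_and_not_dvd
  have hvq : (D.W i).valuation (q : F) < 1 := hqF ▸ hD.vert.pi_lt i
  have h2 : (q : F) = (p : F) ^ multiplicity p (q : locAt 𝔫) * (u : F) := by
    have := congrArg (Subtype.val : locAt 𝔫 → F) hu
    simpa using this
  rw [h2, map_mul, map_pow, hone u hpu, mul_one] at hvq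
  by_contra hcon
  have h3 : (D.W i).valuation (p : F) = 1 := le_antisymm (hle i hi p) (not_lt.1 hcon)
  rw [h3, one_pow] at hvq
  exact lt_irrefl _ hvq

/-- **Leaf F4 = the local factorisation.**
PROOF. `exists_root_of_ufd` for `A = locAt 𝔫` (`ufd_locAt hD hR 𝔫 hP`, `isFractionRing_locAt 𝔫 hR.chart.frac`).  `H p`: from
`f * (p ^ b y) = p ^ a x`: if `p ∤ q`, apply `P.ord` (`Place.ord_mul`, `ord_pow`): `ord f + b = a`; if `p ∣ q`, apply `v_i`:
`v_i p ^ b = v_i p ^ a` with `0 < v_i p < 1`, so `a = b`.  Then `ε` is a unit of `R_𝔫`: `isUnit_locAt_iff` gives `ε s = t`. -/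
theorem local_factor (hD : D.Good O q) (hR : D.ChartOK O q c R)
    (hK : ∀ a : K, ∃ (k : ℕ) (u : O), (q : K) ^ k * a = algebraMap O K u)
    (𝔫 : Ideal R) [𝔫.IsPrime] (hP : D.PointOK R 𝔫) {n : ℕ} (hn : 0 < n) {f : F}
    (hf : ∀ i, IsU (D.W i) f) (hord : ∀ P : Place K F, (n : ℤ) ∣ P.ord f) :
    ∃ G : F, G ≠ 0 ∧ ∃ s t : R, s ∉ 𝔫 ∧ t ∉ 𝔫 ∧ f * s = G ^ n * t := by
  have := ufd_locAt hD hR 𝔫 hP
  have := isFractionRing_locAt 𝔫 hR.chart.frac
  have hf0 : f ≠ 0 := by
    rintro rfl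
    have := hf 0
    rw [IsU, map_zero] at this
    exact zero_ne_one this
  have H : ∀ p : locAt 𝔫, Prime p → ∀ (a b : ℕ) (x y : locAt 𝔫), ¬ p ∣ x → ¬ p ∣ y →
      f * algebraMap (locAt 𝔫) F (p ^ b * y) = algebraMap (locAt 𝔫) F (p ^ a * x) →
      (n : ℤ) ∣ (a : ℤ) - b := by
    intro p hp a b x y hx hy heq
    have heq' : f * ((p : F) ^ b * (y : F)) = (p : F) ^ a * (x : F) := by
      have h1 : ∀ w : locAt 𝔫, algebraMap (locAt 𝔫) F w = (w : F) := fun _ => rfl
      rw [h1, h1] at heq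
      simpa using heq
    have hne : ∀ w : locAt 𝔫, w ≠ 0 → (w : F) ≠ 0 := fun w hw h0 => hw (Subtype.ext h0)
    have hp0 : (p : F) ≠ 0 := hne p hp.ne_zero
    have hx0 : (x : F) ≠ 0 := hne x (fun h0 => hx (h0 ▸ dvd_zero p))
    have hy0 : (y : F) ≠ 0 := hne y (fun h0 => hy (h0 ▸ dvd_zero p))
    by_cases hpq : p ∣ (q : locAt 𝔫)
    · obtain ⟨i, -, hpi, hone⟩ := exists_vert_of_prime hD hR 𝔫 p hp hpq
      have h1 := congrArg (D.W i).valuation heq'
      rw [map_mul, map_mul, map_mul, map_pow, map_pow, hone x hx, hone y hy, mul_one, mul_one,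
        (hf i : (D.W i).valuation f = 1), one_mul] at h1
      have hpos : 0 < (D.W i).valuation (p : F) := by
        rw [zero_lt_iff]
        exact (map_ne_zero _).2 hp0
      have hab : b = a := pow_right_injective₀ hpos hpi.ne h1
      rw [hab, sub_self]
      exact dvd_zero _
    · obtain ⟨P, hP1, hP0⟩ := exists_place_of_prime hR hK 𝔫 p hp hpq
      have h1 := congrArg P.ord heq'
      rw [P.ord_mul hf0 (mul_ne_zero (pow_ne_zero _ hp0) hy0), P.ord_mul (pow_ne_zero _ hp0) hy0,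
        P.ord_mul (pow_ne_zero _ hp0) hx0, ← zpow_natCast, ← zpow_natCast, P.ord_zpow, P.ord_zpow,
        hP1, hP0 x hx, hP0 y hy] at h1
      have h2 : (a : ℤ) - b = P.ord f := by linarith
      rw [h2]
      exact hord P
  obtain ⟨G, ε, hG, hfG⟩ := exists_root_of_ufd hn f hf0 H
  obtain ⟨s, t, hs, ht, hst⟩ := (isUnit_locAt_iff 𝔫 (ε : locAt 𝔫)).1 ε.isUnit
  refine ⟨G, hG, s, t, hs, ht, ?_⟩
  have h1 : algebraMap (locAt 𝔫) F (ε : locAt 𝔫) = ((ε : locAt 𝔫) : F) := rfl
  rw [hfG, h1, ← hst]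
  ring

end Fermat.Agent.S36R.Local
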