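import Mathlib

/-!
# S36, route R: constants in residue fields (Mathlib only).
(Weak approximation: see `Fermat/Agent/S36R/Inj/WeakApprox.lean`.)
-/

set_option autoImplicit false

namespace Fermat.Agent.S36R.Local

open IsLocalRing

variable {F : Type*} [Field F]

/-- **Leaf WA2 (constants).** If the residue field of `O` is algebraically closed, an element of the residue field of `V` whose
`n`-th power is a constant is a constant.
PROOF. `v z ≤ 1` (otherwise `v (z ^ n) > 1`, but `v (z ^ n) ≤ max (v (z ^ n - u)) (v u) ≤ 1`).  The ring hom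
`φ : O → ResidueField V`, `a ↦ residue ⟨algebraMap O F a, hO a⟩` kills `maximalIdeal O` (`hloc`), so it factors through
`ψ : ResidueField O → ResidueField V` (`Ideal.Quotient.lift`).  `P := X ^ n - C (residue O u)` splits (`IsAlgClosed.splits`), is non zero
(monic of degree `n > 0`), and `residue z` is a root of `P.map ψ`; `Polynomial.roots_map`/`Polynomial.Splits` ⟹ `residue z = ψ (λbar)`; lift
`λbar` to `O` (`residue_surjective`). -/
theorem exists_const_of_pow {O : Type*} [CommRing O] [IsLocalRing O] [IsAlgClosed (ResidueField O)]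
    [Algebra O F] (V : ValuationSubring F) (hO : ∀ a : O, algebraMap O F a ∈ V)
    (hloc : ∀ a ∈ maximalIdeal O, V.valuation (algebraMap O F a) < 1) {n : ℕ} (hn : 0 < n) (z : F)
    (u : O) (hz : V.valuation (z ^ n - algebraMap O F u) < 1) :
    ∃ l : O, V.valuation (z - algebraMap O F l) < 1 := by
  have hzV : z ∈ V := by
    rw [← V.valuation_le_one_iff]
    by_contra hcon
    rw [not_le] at hcon
    have h1 : V.valuation (z ^ n) ≤ 1 := by
      have h2 : z ^ n = (z ^ n - algebraMap O F u) + algebraMap O F u := by ring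
      rw [h2]
      exact (V.valuation).map_add_le hz.le ((V.valuation_le_one_iff _).2 (hO u))
    rw [map_pow] at h1
    exact absurd h1 (not_le.2 (one_lt_pow₀ hcon hn.ne'))
  let f : O →+* V := (algebraMap O F).codRestrict V hO
  let φ : O →+* ResidueField V := (residue V).comp f
  have hφ : ∀ a ∈ maximalIdeal O, φ a = 0 := by
    intro a ha
    show residue V (f a) = 0
    rw [residue_eq_zero_iff, V.valuation_lt_one_iff]
    exact hloc a ha
  let ψ : ResidueField O →+* ResidueField V := Ideal.Quotient.lift (maximalIdeal O) φ hφ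
  have hψ : ∀ a : O, ψ (residue O a) = φ a := fun a => Ideal.Quotient.lift_mk _ _ _
  have hroot : (residue V ⟨z, hzV⟩) ^ n = φ u := by
    rw [← sub_eq_zero]
    show (residue V ⟨z, hzV⟩) ^ n - residue V (f u) = 0
    rw [← map_pow, ← map_sub, residue_eq_zero_iff, V.valuation_lt_one_iff]
    exact hz
  have hP0 : (Polynomial.X ^ n - Polynomial.C (residue O u) : Polynomial (ResidueField O)) ≠ 0 :=
    Polynomial.X_pow_sub_C_ne_zero hn _
  obtain ⟨y, hy⟩ := (IsAlgClosed.splits
    (Polynomial.X ^ n - Polynomial.C (residue O u) : Polynomial (ResidueField O))).mem_range_of_isRoot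
    hP0 (i := ψ) (x := residue V ⟨z, hzV⟩) (by
      rw [Polynomial.IsRoot.def, Polynomial.eval_map, Polynomial.eval₂_sub, Polynomial.eval₂_pow,
        Polynomial.eval₂_X, Polynomial.eval₂_C, hψ, hroot, sub_self])
  obtain ⟨l, rfl⟩ := residue_surjective y
  refine ⟨l, ?_⟩
  rw [hψ] at hy
  have h3 : residue V (⟨z, hzV⟩ - f l) = 0 := by
    rw [map_sub, ← hy]
    exact sub_self _
  rw [residue_eq_zero_iff, V.valuation_lt_one_iff] at h3
  exact h3

/-- **Leaf WA3 (roots of constants).** (`IsAlgClosed.exists_pow_nat_eq` in `ResidueField O`, lift.) -/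
theorem exists_root_const {O : Type*} [CommRing O] [IsLocalRing O] [IsAlgClosed (ResidueField O)]
    {n : ℕ} (hn : 0 < n) (u : O) : ∃ l : O, l ^ n - u ∈ maximalIdeal O := by
  obtain ⟨y, hy⟩ := IsAlgClosed.exists_pow_nat_eq (residue O u) hn
  obtain ⟨l, rfl⟩ := residue_surjective y
  refine ⟨l, ?_⟩
  rw [← residue_eq_zero_iff, map_sub, map_pow, hy, sub_self]

end Fermat.Agent.S36R.Local
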