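import Fermat.Agent.S36R.Local.Vert
import Fermat.Agent.S36R.Local.WA
import Fermat.Agent.S36R.Inj.WeakApprox

/-!
# S36, route R, local block: values at a closed point along a branch; `Inj.Cond`; approximation
-/

set_option autoImplicit false

namespace Fermat.Agent.S36R.Local

open Inj IsLocalRing

variable {O K F FA : Type*} [CommRing O] [Field K] [Field F] [Field FA] [Algebra K F] [Algebra K FA]
  [Algebra O F] {D : Lvl K F FA} {q : ℕ} {c : F} {R : Subring F}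

theorem Value_cg_symm {V : ValuationSubring F} {x y : F} (h : Cg V x y) : Cg V y x := by
  unfold Cg at h ⊢
  rwa [Valuation.map_sub_swap]

theorem Value_cg_trans {V : ValuationSubring F} {x y z : F} (h : Cg V x y) (h' : Cg V y z) :
    Cg V x z := by
  unfold Cg at h h' ⊢
  have : x - z = (x - y) + (y - z) := by ring
  rw [this]
  exact lt_of_le_of_lt (Valuation.map_add _ _ _) (max_lt h h')

theorem Value_cg_mul {V : ValuationSubring F} {x y w : F} (hw : V.valuation w ≤ 1) (h : Cg V x y) :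
    Cg V (x * w) (y * w) := by
  unfold Cg at h ⊢
  rw [← sub_mul, map_mul]
  exact lt_of_le_of_lt (mul_le_of_le_one_right' hw) h

theorem Value_cg_pow {V : ValuationSubring F} {x y : F} (hx : V.valuation x ≤ 1)
    (hy : V.valuation y ≤ 1) (h : Cg V x y) (n : ℕ) : Cg V (x ^ n) (y ^ n) := by
  induction n with
  | zero => simp [Cg]
  | succ n ih =>
    rw [pow_succ, pow_succ]
    refine Value_cg_trans (Value_cg_mul hx ih) ?_
    rw [mul_comm _ x, mul_comm _ y]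
    exact Value_cg_mul (by rw [map_pow]; exact pow_le_one' hy n) h

theorem Value_cg_cancel {V : ValuationSubring F} {x y w : F} (hw : V.valuation w = 1)
    (h : Cg V (x * w) (y * w)) : Cg V x y := by
  unfold Cg at h ⊢
  rwa [← sub_mul, map_mul, hw, mul_one] at h

theorem Value_isUnit (hR : D.ChartOK O q c R) (𝔫 : Ideal R) [𝔫.IsPrime] {i : Fin 3}
    (hi : Thru D.W 𝔫 i) {n : ℕ} (hn : 0 < n) (d : locAt 𝔫) {s t : R} (ht : t ∉ 𝔫)
    (h : Cg (D.W i) ((d : F) ^ n * s) t) : IsUnit d := by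
  have := isLocalRing_locAt 𝔫
  by_contra hd
  have hd' : d ∈ maximalIdeal (locAt 𝔫) := (mem_maximalIdeal d).2 hd
  have hprime := cen_isPrime hR 𝔫 hi
  have hle : cen hR 𝔫 hi ≤ maximalIdeal (locAt 𝔫) := le_maximalIdeal hprime.ne_top
  have he : d ^ n * toLoc 𝔫 s - toLoc 𝔫 t ∈ cen hR 𝔫 hi := by
    rw [mem_cen]
    exact h
  have h1 : d ^ n * toLoc 𝔫 s ∈ maximalIdeal (locAt 𝔫) :=
    Ideal.mul_mem_right _ _ (Ideal.pow_mem_of_mem _ hd' n hn)
  have h2 : toLoc 𝔫 t ∈ maximalIdeal (locAt 𝔫) := by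
    have := Ideal.sub_mem _ h1 (hle he)
    rwa [sub_sub_cancel] at this
  apply (mem_maximalIdeal _).1 h2
  rw [isUnit_locAt_iff]
  exact ⟨1, t, (Ideal.ne_top_iff_one 𝔫).1 (Ideal.IsPrime.ne_top ‹_›), ht, by simp⟩

/-- **Leaf VA1 (normality of the branches).** If `z ^ n ≡ t / s` along `W i` with `s, t ∉ 𝔫`, then `z ≡ a / b` along `W i` with `a, b ∉ 𝔫`.
PROOF. `v_i s = v_i t = 1` (`hi`, `hR.chart.le_W`), so `v_i z = 1` (`v_i (z ^ n s) = v_i t`, as `v_i (z ^ n s - t) < 1 = v_i t`).  `hP.vr i hi z`.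
Case `z ≡ d`, `d ∈ locAt 𝔫`: `d ^ n s ≡ t` along `W i`; if `d` were a non unit of `locAt 𝔫` (`not_isUnit_locAt_iff`: `d s' = t'`, `t' ∈ 𝔫`) then
`x := t s' ^ n - t' ^ n s ∈ R` has `v_i x < 1`, so `x ∈ 𝔫` (`hi`), so `t s' ^ n ∈ 𝔫`: contradiction.  So `d` is a unit: `isUnit_locAt_iff`: `d b = a`,
`a, b ∉ 𝔫`, and `z b - a = (z - d) b`.  Case `z⁻¹ ≡ d`: the same with `t d ^ n ≡ s`; `d a = b`, `z b - a = -(z⁻¹ - d) z a`... -/
theorem exists_value (hR : D.ChartOK O q c R) (𝔫 : Ideal R) [𝔫.IsPrime] (hP : D.PointOK R 𝔫)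
    {i : Fin 3} (hi : Thru D.W 𝔫 i) {n : ℕ} (hn : 0 < n) {z : F} {s t : R} (hs : s ∉ 𝔫) (ht : t ∉ 𝔫)
    (hz : Cg (D.W i) (z ^ n * s) t) :
    ∃ a b : R, a ∉ 𝔫 ∧ b ∉ 𝔫 ∧ Cg (D.W i) (z * b) a := by
  have hvR : ∀ x : R, (D.W i).valuation (x : F) ≤ 1 := fun x =>
    (ValuationSubring.valuation_le_one_iff _ _).2 (hR.chart.le_W i _ x.2)
  have hvA : ∀ x : locAt 𝔫, (D.W i).valuation (x : F) ≤ 1 := fun x =>
    (ValuationSubring.valuation_le_one_iff _ _).2 (locAt_le_W hR 𝔫 hi x)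
  have hv1 : ∀ x : R, x ∉ 𝔫 → (D.W i).valuation (x : F) = 1 := fun x hx =>
    le_antisymm (hvR x) (not_lt.mp fun hlt => hx (hi x hlt))
  have hvz : (D.W i).valuation z = 1 := by
    have h1 : (D.W i).valuation (z ^ n * s) = (D.W i).valuation (t : F) := by
      apply Valuation.map_eq_of_sub_lt
      rw [hv1 t ht]
      exact hz
    rw [map_mul, map_pow, hv1 s hs, hv1 t ht, mul_one] at h1
    exact (pow_eq_one_iff.mp h1).resolve_right hn.ne'
  have hz0 : z ≠ 0 := by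
    rintro rfl
    rw [map_zero] at hvz
    exact zero_ne_one hvz
  rcases hP.vr i hi z ((ValuationSubring.valuation_le_one_iff _ _).1 hvz.le) with
    ⟨d', hd', hzd⟩ | ⟨d', hd', hzd'⟩
  · obtain ⟨d, rfl⟩ : ∃ d : locAt 𝔫, (d : F) = d' := ⟨⟨d', hd'⟩, rfl⟩
    have hdu : IsUnit d := by
      refine Value_isUnit hR 𝔫 hi hn d ht (s := s) ?_
      exact Value_cg_trans (Value_cg_mul (hvR s)
        (Value_cg_pow (hvA d) hvz.le (Value_cg_symm hzd) n)) hz
    obtain ⟨b, a, hb, ha, hab⟩ := (isUnit_locAt_iff 𝔫 d).1 hdu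
    refine ⟨a, b, ha, hb, ?_⟩
    rw [← hab]
    exact Value_cg_mul (hvR b) hzd
  · obtain ⟨d, rfl⟩ : ∃ d : locAt 𝔫, (d : F) = d' := ⟨⟨d', hd'⟩, rfl⟩
    -- `z d ≡ 1`
    have hzd : Cg (D.W i) (z * d) 1 := by
      have h := Value_cg_symm (Value_cg_mul hvz.le hzd')
      rwa [inv_mul_cancel₀ hz0, mul_comm] at h
    have hdu : IsUnit d := by
      refine Value_isUnit hR 𝔫 hi hn d hs (s := t) ?_
      -- `d ^ n t ≡ d ^ n z ^ n s = (z d) ^ n s ≡ s`
      have h1 : Cg (D.W i) ((d : F) ^ n * t) ((z * d) ^ n * s) := by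
        have h2 := Value_cg_mul (w := (d : F) ^ n)
          (by rw [map_pow]; exact pow_le_one' (hvA d) n) (Value_cg_symm hz)
        have e1 : (t : F) * (d : F) ^ n = (d : F) ^ n * t := mul_comm _ _
        have e2 : z ^ n * (s : F) * (d : F) ^ n = (z * d) ^ n * s := by rw [mul_pow]; ring
        rwa [e1, e2] at h2
      refine Value_cg_trans h1 ?_
      have h3 := Value_cg_mul (hvR s) (Value_cg_pow
        (by rw [map_mul, hvz, one_mul]; exact hvA d) (by rw [map_one]) hzd n)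
      rwa [one_pow, one_mul] at h3
    obtain ⟨a, b, ha, hb, hab⟩ := (isUnit_locAt_iff 𝔫 d).1 hdu
    refine ⟨a, b, ha, hb, ?_⟩
    rw [← hab]
    have h4 := Value_cg_mul (hvR a) hzd
    rwa [one_mul, mul_assoc] at h4

/-- **Leaf VA2.** `TripleOK.sep` from: `W i` is the local ring of `R` at its centre.
(if every `x : R` with `v_j x < 1` had `v_i x < 1`, then `W i ≤ W j`: `z ∈ W i`, `z s = r` (`hloc`), `v_i s = 1` so `v_j s = 1`
(`v_j s ≤ 1` by `hR.chart.le_W`), `v_j z = v_j r ≤ 1`; contradiction with `hD.incomp`.) -/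
theorem sep_of_loc (hD : D.Good O q) (hR : D.ChartOK O q c R)
    (hloc : ∀ i, ∀ z ∈ D.W i, ∃ r s : R, (D.W i).valuation (s : F) = 1 ∧ z * s = r) {i j : Fin 3}
    (hij : i ≠ j) : ∃ x : R, (D.W j).valuation (x : F) < 1 ∧ (D.W i).valuation (x : F) = 1 := by
  by_contra hcon
  push Not at hcon
  apply hD.incomp i j hij
  intro z hz
  obtain ⟨r, s, hs, hzs⟩ := hloc i z hz
  have hvR : ∀ x : R, (D.W j).valuation (x : F) ≤ 1 := fun x =>
    (ValuationSubring.valuation_le_one_iff _ _).2 (hR.chart.le_W j _ x.2)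
  have hsj : (D.W j).valuation (s : F) = 1 :=
    le_antisymm (hvR s) (not_lt.mp fun hlt => hcon s hlt hs)
  rw [← ValuationSubring.valuation_le_one_iff]
  calc (D.W j).valuation z = (D.W j).valuation (z * s) := by rw [map_mul, hsj, mul_one]
    _ = (D.W j).valuation (r : F) := by rw [hzs]
    _ ≤ 1 := hvR r

/-- **Leaf VA3.** two different branches through `𝔫` meet only at `𝔫`.
PROOF. `Inj.cond_of_isNoetherianRing` (`hR.noeth`).  `hne` := `hsep`.  `hdim`: let `P` be a prime of `R`, `p_i ≤ P ≤ 𝔫`, and suppose some `x ∈ P` has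
`v_i x = 1`; to show `𝔫 ≤ P`.  Let `y ∈ 𝔫`.  `Dbar := locAt 𝔫 ⧸ cen hR 𝔫 hi` is a local principal domain (`quot_pid`): its maximal ideal is
`(tbar)`; `xbar ≠ 0` is a non unit (`x ∈ 𝔫`), `xbar = unit * tbar ^ k`, `k ≥ 1`, `ybar = tbar * ...`, so `ybar ^ k ∈ (xbar)`: `y ^ k - a x ∈ cen`,
`a ∈ locAt 𝔫`; clearing the denominator `s ∉ 𝔫` of `a`: `s y ^ k - a' x ∈ R` has `v_i < 1`, so lies in `P`; hence `s y ^ k ∈ P`, `s ∉ P`, `y ∈ P`.
(ALTERNATIVE: in a valuation ring (`hP.vr`) `xbar ∣ ybar ^ k` for some `k` by noetherianity.) -/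
theorem cond (hR : D.ChartOK O q c R) (𝔫 : Ideal R) [𝔫.IsPrime] (hP : D.PointOK R 𝔫)
    (hsep : ∀ i j : Fin 3, i ≠ j →
      ∃ x : R, (D.W j).valuation (x : F) < 1 ∧ (D.W i).valuation (x : F) = 1) :
    Inj.Cond D.W 𝔫 := by
  have := hR.noeth
  refine Inj.cond_of_isNoetherianRing (fun i x => hR.chart.le_W i x x.2) 𝔫 ?_
    (fun i j _ _ hij => ?_)
  swap
  · obtain ⟨x, h1, h2⟩ := hsep i j hij
    exact ⟨x, h1, by rw [h2]; exact lt_irrefl _⟩
  intro i hi P hPp hpP hP𝔫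
  by_cases hall : ∀ x ∈ P, (D.W i).valuation (x : F) < 1
  · exact Or.inl hall
  right
  push Not at hall
  obtain ⟨x, hxP, hx⟩ := hall
  refine le_antisymm hP𝔫 fun y hy => ?_
  have hlocA := isLocalRing_locAt 𝔫
  have hprime := cen_isPrime hR 𝔫 hi
  have hpid := quot_pid hR 𝔫 hP hi
  have hloc : IsLocalRing (locAt 𝔫 ⧸ cen hR 𝔫 hi) :=
    IsLocalRing.of_surjective' (Ideal.Quotient.mk (cen hR 𝔫 hi)) Ideal.Quotient.mk_surjective
  have hdom : IsDomain (locAt 𝔫 ⧸ cen hR 𝔫 hi) := Ideal.Quotient.isDomain _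
  have hle : cen hR 𝔫 hi ≤ maximalIdeal (locAt 𝔫) := le_maximalIdeal hprime.ne_top
  -- `ybar` is a non unit
  have hyA : toLoc 𝔫 y ∈ maximalIdeal (locAt 𝔫) := by
    rw [mem_maximalIdeal, mem_nonunits_iff, not_isUnit_locAt_iff]
    exact ⟨1, y, (Ideal.ne_top_iff_one 𝔫).1 (Ideal.IsPrime.ne_top ‹_›), hy, by simp⟩
  have hybar : Ideal.Quotient.mk (cen hR 𝔫 hi) (toLoc 𝔫 y) ∈
      maximalIdeal (locAt 𝔫 ⧸ cen hR 𝔫 hi) := by
    rw [mem_maximalIdeal, mem_nonunits_iff]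
    rintro ⟨u, hu⟩
    obtain ⟨w, hw⟩ := Ideal.Quotient.mk_surjective (u⁻¹ : _ˣ).1
    have h1 : Ideal.Quotient.mk (cen hR 𝔫 hi) (toLoc 𝔫 y * w) = Ideal.Quotient.mk _ 1 := by
      rw [map_mul, hw, ← hu, map_one, Units.mul_inv]
    rw [Ideal.Quotient.eq] at h1
    have h2 := Ideal.sub_mem _ (Ideal.mul_mem_right w _ hyA) (hle h1)
    rw [sub_sub_cancel] at h2
    exact (Ideal.ne_top_iff_one _).1 (maximalIdeal.isMaximal _).ne_top h2
  have hxbar : Ideal.Quotient.mk (cen hR 𝔫 hi) (toLoc 𝔫 x) ≠ 0 := by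
    rw [Ne, Ideal.Quotient.eq_zero_iff_mem, mem_cen]
    exact not_lt.2 hx
  have hrad : Ideal.Quotient.mk (cen hR 𝔫 hi) (toLoc 𝔫 y) ∈
      (Ideal.span {Ideal.Quotient.mk (cen hR 𝔫 hi) (toLoc 𝔫 x)}).radical := by
    rw [Ideal.radical_eq_sInf, Ideal.mem_sInf]
    rintro J ⟨hJ1, hJ2⟩
    have hJne : J ≠ ⊥ := by
      rintro rfl
      exact hxbar (by simpa using hJ1 (Ideal.mem_span_singleton_self _))
    rw [IsLocalRing.eq_maximalIdeal (hJ2.isMaximal hJne)]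
    exact hybar
  obtain ⟨k, hk⟩ := hrad
  obtain ⟨abar, ha⟩ := Ideal.mem_span_singleton'.mp hk
  obtain ⟨a, rfl⟩ := Ideal.Quotient.mk_surjective abar
  rw [← map_mul, ← map_pow, Ideal.Quotient.eq, mem_cen] at ha
  obtain ⟨s, hs, hsa⟩ := a.2
  -- `s y ^ k - a' x`
  have hvR : ∀ x : R, (D.W i).valuation (x : F) ≤ 1 := fun x =>
    (ValuationSubring.valuation_le_one_iff _ _).2 (hR.chart.le_W i _ x.2)
  have h3 : (⟨(s : F) * a, hsa⟩ : R) * x - s * y ^ k ∈ P := by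
    apply hpP
    have : (((⟨(s : F) * a, hsa⟩ : R) * x - s * y ^ k : R) : F) =
        s * (((a * toLoc 𝔫 x - toLoc 𝔫 y ^ k : locAt 𝔫)) : F) := by
      push_cast
      simp only [coe_toLoc]
      ring
    rw [this, map_mul]
    exact lt_of_le_of_lt (mul_le_of_le_one_left' (hvR s)) ha
  have h4 : s * y ^ k ∈ P := by
    have := Ideal.sub_mem _ (Ideal.mul_mem_left P (⟨(s : F) * a, hsa⟩ : R) hxP) h3
    rwa [sub_sub_cancel] at this
  rcases hPp.mem_or_mem h4 with h5 | h5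
  · exact absurd (hP𝔫 h5) hs
  · exact hPp.mem_of_pow_mem k h5

theorem Value_exists_zpow (hD : D.Good O q) (i : Fin 3) (y : F) (hy : y ≠ 0) :
    ∃ x : ℤ, (D.W i).valuation y ^ (q - 1) = (D.W i).valuation (q : F) ^ x := by
  have hq0 : (q : F) ≠ 0 := by
    have := hD.vert.pi_ne
    rwa [map_natCast] at this
  have key : ∀ (V : ValuationSubring F) (w : F) (x : ℤ), IsU V (w / (q : F) ^ x) →
      V.valuation w = V.valuation (q : F) ^ x := by
    intro V w x h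
    unfold IsU at h
    rw [map_div₀, map_zpow₀] at h
    have hne : V.valuation (q : F) ^ x ≠ 0 := zpow_ne_zero _ ((Valuation.ne_zero_iff _).2 hq0)
    rwa [div_eq_one_iff_eq hne] at h
  fin_cases i
  · obtain ⟨x, hx⟩ := hD.eW0 y hy
    refine ⟨x * ((q - 1 : ℕ) : ℤ), ?_⟩
    have := key _ _ _ hx
    simp only [Fin.zero_eta]
    rw [this, zpow_mul, zpow_natCast]
  · obtain ⟨x, hx⟩ := hD.eW1 y hy
    refine ⟨x, ?_⟩
    have := key _ _ _ hx
    rw [map_pow] at this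
    exact this
  · obtain ⟨x, hx⟩ := hD.eW2 y hy
    refine ⟨x * ((q - 1 : ℕ) : ℤ), ?_⟩
    have := key _ _ _ hx
    simp only [Fin.reduceFinMk]
    rw [this, zpow_mul, zpow_natCast]

/-- **Leaf VA4.** the hypothesis `harch` of `Inj.exists_strong_approx`, `Inj.exists_prescribed`.
(`z = 0` trivial.  By `hD.eW0/eW1/eW2` (`fin_cases i`): `v_i z ^ (q-1) = v_i q ^ x` for some `x : ℤ` (for `i = 0, 2` raise to the power `q - 1`).  Take
`N := (-x).toNat`: `(v_i (q ^ N z)) ^ (q-1) = v_i q ^ (N (q-1) + x) ≤ 1` since `N (q - 1) + x ≥ 0` and `v_i q < 1`; `q - 1 ≥ 1`.) -/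
theorem arch (hq : q.Prime) (hD : D.Good O q) (i : Fin 3) (z : F) :
    ∃ N : ℕ, algebraMap O F (q : O) ^ N * z ∈ D.W i := by
  by_cases hz : z = 0
  · exact ⟨0, by simp [hz, zero_mem]⟩
  obtain ⟨x, hx⟩ := Value_exists_zpow hD i z hz
  have hq0 : (q : F) ≠ 0 := by
    have := hD.vert.pi_ne
    rwa [map_natCast] at this
  have hvq0 : (D.W i).valuation (q : F) ≠ 0 := (Valuation.ne_zero_iff _).2 hq0
  have hvq : (D.W i).valuation (q : F) < 1 := by
    have := hD.vert.pi_lt i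
    rwa [map_natCast] at this
  have hq1 : 1 ≤ q - 1 := by have := hq.two_le; omega
  refine ⟨(-x).toNat, ?_⟩
  set N := (-x).toNat with hN
  obtain ⟨k, hk⟩ : ∃ k : ℕ, ((N * (q - 1) : ℕ) : ℤ) + x = (k : ℤ) := by
    refine ⟨(((N * (q - 1) : ℕ) : ℤ) + x).toNat, ?_⟩
    have h1 : (N : ℤ) ≤ ((N * (q - 1) : ℕ) : ℤ) := by
      exact_mod_cast Nat.le_mul_of_pos_right N hq1
    have h2 : 0 ≤ ((N * (q - 1) : ℕ) : ℤ) + x := by
      have := Int.self_le_toNat (-x)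
      omega
    rw [Int.toNat_of_nonneg h2]
  rw [map_natCast, ← ValuationSubring.valuation_le_one_iff]
  have h1 : (D.W i).valuation ((q : F) ^ N * z) ^ (q - 1) ≤ 1 := by
    calc (D.W i).valuation ((q : F) ^ N * z) ^ (q - 1)
        = (D.W i).valuation (q : F) ^ (N * (q - 1)) * (D.W i).valuation z ^ (q - 1) := by
          rw [map_mul, map_pow, mul_pow, ← pow_mul]
      _ = (D.W i).valuation (q : F) ^ (((N * (q - 1) : ℕ) : ℤ) + x) := by
          rw [hx, zpow_add₀ hvq0, zpow_natCast]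
      _ = (D.W i).valuation (q : F) ^ k := by
          rw [hk, zpow_natCast]
      _ ≤ 1 := pow_le_one' hvq.le k
  by_contra hcon
  rw [not_le] at hcon
  exact absurd h1 (not_le.2 (one_lt_pow₀ hcon (by omega)))

end Fermat.Agent.S36R.Local
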