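import Fermat.Agent.S36R.Contracts

/-!
# S36, route R, local block: the subring `Inj.locAt 𝔫` of `F` is the localisation of `R` at `𝔫`
-/

set_option autoImplicit false

namespace Fermat.Agent.S36R.Local

open Inj IsLocalRing

variable {F : Type*} [Field F] {R : Subring F} (𝔫 : Ideal R) [𝔫.IsPrime]

/-- `R → R_𝔫`. -/
def toLoc : R →+* locAt 𝔫 := Subring.inclusion (le_locAt 𝔫)

@[simp] theorem coe_toLoc (x : R) : ((toLoc 𝔫 x : locAt 𝔫) : F) = x := rfl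

/-- the `R`-algebra structure of `R_𝔫` (a `def`; use `attribute [local instance]`). -/
@[instance_reducible]
def algLoc : Algebra R (locAt 𝔫) := (toLoc 𝔫).toAlgebra

attribute [local instance] algLoc

theorem coe_algebraMap_locAt (x : R) : ((algebraMap R (locAt 𝔫) x : locAt 𝔫) : F) = x := rfl

omit [𝔫.IsPrime] in
theorem LocAt_coe_ne_zero {s : R} (hs : s ∉ 𝔫) : (s : F) ≠ 0 := by
  intro h0
  apply hs
  have : s = 0 := Subtype.ext h0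
  rw [this]
  exact zero_mem _

/-- **Leaf LA1.** (`IsLocalization.mk` : `map_units'`: for `s ∉ 𝔫` the inverse `s⁻¹` lies in `locAt 𝔫` (witness `s`);
`surj'`: `z ∈ locAt 𝔫`, `s z = r ∈ R`; `exists_of_eq`: injectivity, take `c = 1`.) -/
theorem isLocalization_locAt : IsLocalization.AtPrime (locAt 𝔫) 𝔫 := by
  refine (isLocalization_iff 𝔫.primeCompl (locAt 𝔫)).mpr ⟨?_, ?_, ?_⟩
  · rintro ⟨s, hs⟩
    have hs' : s ∉ 𝔫 := hs
    have hs0 := LocAt_coe_ne_zero 𝔫 hs'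
    refine isUnit_iff_exists_inv.mpr ⟨⟨(s : F)⁻¹, ⟨s, hs', ?_⟩⟩, ?_⟩
    · rw [mul_inv_cancel₀ hs0]
      exact one_mem R
    · apply Subtype.ext
      exact mul_inv_cancel₀ hs0
  · rintro ⟨z, s, hs, hz⟩
    refine ⟨(⟨_, hz⟩, ⟨s, hs⟩), ?_⟩
    apply Subtype.ext
    exact mul_comm _ _
  · intro x y h
    refine ⟨1, ?_⟩
    have h1 : (x : F) = y := congrArg (fun w : locAt 𝔫 => (w : F)) h
    rw [Subtype.ext h1]

theorem isLocalRing_locAt : IsLocalRing (locAt 𝔫) :=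
  haveI := isLocalization_locAt 𝔫
  IsLocalization.AtPrime.isLocalRing (locAt 𝔫) 𝔫

theorem isNoetherianRing_locAt [h : IsNoetherianRing R] : IsNoetherianRing (locAt 𝔫) :=
  haveI := isLocalization_locAt 𝔫
  IsLocalization.isNoetherianRing 𝔫.primeCompl (locAt 𝔫) h

/-- **Leaf LA2.** units of `R_𝔫`. -/
theorem isUnit_locAt_iff (z : locAt 𝔫) :
    IsUnit z ↔ ∃ s t : R, s ∉ 𝔫 ∧ t ∉ 𝔫 ∧ (z : F) * s = t := by
  constructor
  · intro hz
    obtain ⟨⟨w, s', hs', hw⟩, hzw⟩ := isUnit_iff_exists_inv.mp hz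
    obtain ⟨z, s, hs, hz'⟩ := z
    have hzw' : z * w = 1 := congrArg Subtype.val hzw
    refine ⟨s, ⟨_, hz'⟩, hs, ?_, mul_comm _ _⟩
    intro hmem
    have h1 : (⟨_, hz'⟩ : R) * ⟨_, hw⟩ = s * s' := by
      apply Subtype.ext
      show (s : F) * z * ((s' : F) * w) = s * s'
      linear_combination (s : F) * s' * hzw'
    have h2 : s * s' ∈ 𝔫 := by
      rw [← h1]
      exact 𝔫.mul_mem_right _ hmem
    exact Ideal.IsPrime.mul_notMem ‹𝔫.IsPrime› hs hs' h2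
  · rintro ⟨s, t, hs, ht, hzst⟩
    have ht0 := LocAt_coe_ne_zero 𝔫 ht
    refine isUnit_iff_exists_inv.mpr ⟨⟨_, div_mem_locAt 𝔫 s t ht⟩, ?_⟩
    apply Subtype.ext
    show (z : F) * ((s : F) * (t : F)⁻¹) = 1
    rw [← mul_assoc, hzst, mul_inv_cancel₀ ht0]

/-- **Leaf LA3.** non units of `R_𝔫`. -/
theorem not_isUnit_locAt_iff (z : locAt 𝔫) :
    ¬ IsUnit z ↔ ∃ s t : R, s ∉ 𝔫 ∧ t ∈ 𝔫 ∧ (z : F) * s = t := by
  constructor
  · intro hz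
    obtain ⟨s, hs, hz'⟩ := z.2
    refine ⟨s, ⟨_, hz'⟩, hs, ?_, mul_comm _ _⟩
    by_contra hmem
    exact hz ((isUnit_locAt_iff 𝔫 z).mpr ⟨s, ⟨_, hz'⟩, hs, hmem, mul_comm _ _⟩)
  · rintro ⟨s, t, hs, ht, hzst⟩ hz
    obtain ⟨s', t', hs', ht', hzst'⟩ := (isUnit_locAt_iff 𝔫 z).mp hz
    have h1 : t * s' = t' * s := by
      apply Subtype.ext
      show (t : F) * s' = t' * s
      rw [← hzst, ← hzst']
      ring
    have h2 : t' * s ∈ 𝔫 := by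
      rw [← h1]
      exact 𝔫.mul_mem_right _ ht
    exact Ideal.IsPrime.mul_notMem ‹𝔫.IsPrime› ht' hs h2

/-- **Leaf LA4.** (`IsFractionRing` of a subring of a field: `IsLocalization` with `surj'` from `hfrac`.) -/
theorem isFractionRing_locAt (hfrac : ∀ z : F, ∃ b ∈ R, b ≠ 0 ∧ b * z ∈ R) :
    IsFractionRing (locAt 𝔫) F := by
  refine (isLocalization_iff (nonZeroDivisors (locAt 𝔫)) F).mpr ⟨?_, ?_, ?_⟩
  · rintro ⟨y, hy⟩
    have hy0 : y ≠ 0 := nonZeroDivisors.ne_zero hy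
    have hy1 : (y : F) ≠ 0 := fun h => hy0 (Subtype.ext h)
    exact isUnit_iff_ne_zero.mpr hy1
  · intro z
    obtain ⟨b, hb, hb0, hbz⟩ := hfrac z
    have hb1 : (⟨b, le_locAt 𝔫 hb⟩ : locAt 𝔫) ≠ 0 := fun h => hb0 (congrArg Subtype.val h)
    refine ⟨(⟨b * z, le_locAt 𝔫 hbz⟩, ⟨⟨b, le_locAt 𝔫 hb⟩, mem_nonZeroDivisors_of_ne_zero hb1⟩), ?_⟩
    exact mul_comm _ _
  · intro x y h
    exact ⟨1, by rw [Subtype.ext h]⟩

/-- **Leaf LA5.** `R_𝔫` is root closed if `R` is.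
(`z ^ m ∈ R_𝔫`: `s z ^ m ∈ R`, so `(s z) ^ m = s ^ (m-1) (s z ^ m) ∈ R`, `s z ∈ R`.) -/
theorem locAt_root_closed (hR : ∀ (z : F) (m : ℕ), 0 < m → z ^ m ∈ R → z ∈ R) (z : F) (m : ℕ)
    (hm : 0 < m) (hz : z ^ m ∈ locAt 𝔫) : z ∈ locAt 𝔫 := by
  obtain ⟨s, hs, hsz⟩ := hz
  refine ⟨s, hs, hR _ m hm ?_⟩
  obtain ⟨k, rfl⟩ : ∃ k, m = k + 1 := ⟨m - 1, by omega⟩
  have h : ((s : F) * z) ^ (k + 1) = (s : F) ^ k * ((s : F) * z ^ (k + 1)) := by ring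
  rw [h]
  exact mul_mem (pow_mem s.2 k) hsz

end Fermat.Agent.S36R.Local
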