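import Mathlib

/-!
# S36, route R, local block: a noetherian local domain `A` with a prime element `b` such that
`A / (b)` is a principal ideal ring is factorial (pure commutative algebra, Mathlib only)
-/

set_option autoImplicit false

namespace Fermat.Agent.S36R.Local

open IsLocalRing

variable {A : Type*} [CommRing A] [IsDomain A] [IsNoetherianRing A] [IsLocalRing A]

/-- **Leaf U1.** Every prime ideal not containing `b` is principal.
PROOF. The image `P'` of `P` in `A ⧸ (b)` (`Ideal.map (Ideal.Quotient.mk _) P`) is principal; as the quotient map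
is surjective its generator is the class of some `x ∈ P` (`Ideal.mem_map_iff_of_surjective`).  Claim
`P = (x) + b P`: for `y ∈ P` the class of `y` is a multiple of the class of `x`: `y - a x ∈ (b)`, `y - a x = b z`,
and `b z ∈ P`, `b ∉ P` gives `z ∈ P`.  So `P ≤ span {x} ⊔ (maximalIdeal A) • P` (`b ∈ maximalIdeal A`), and Nakayama
(`Submodule.le_of_le_smul_of_le_jacobson_bot` with `P.FG` from noetherianity and
`IsLocalRing.jacobson_eq_maximalIdeal ⊥ bot_ne_top`) gives `P ≤ span {x}`. -/
theorem isPrincipal_of_notMem (b : A) (hb : b ∈ maximalIdeal A)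
    [IsPrincipalIdealRing (A ⧸ Ideal.span {b})] (P : Ideal A) [P.IsPrime] (hbP : b ∉ P) :
    P.IsPrincipal := by
  have hsurj : Function.Surjective (Ideal.Quotient.mk (Ideal.span {b})) :=
    Ideal.Quotient.mk_surjective
  obtain ⟨g, hg⟩ := (IsPrincipalIdealRing.principal
    (Ideal.map (Ideal.Quotient.mk (Ideal.span {b})) P)).principal
  have hgmem : g ∈ Ideal.map (Ideal.Quotient.mk (Ideal.span {b})) P := by
    rw [hg]
    exact Submodule.mem_span_singleton_self g
  obtain ⟨x, hxP, rfl⟩ := (Ideal.mem_map_iff_of_surjective _ hsurj).mp hgmem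
  refine ⟨⟨x, le_antisymm ?_ ?_⟩⟩
  · have hle : P ≤ Ideal.span {x} ⊔ maximalIdeal A • P := by
      intro y hy
      have hy' : Ideal.Quotient.mk (Ideal.span {b}) y ∈
          Ideal.map (Ideal.Quotient.mk (Ideal.span {b})) P := Ideal.mem_map_of_mem _ hy
      rw [hg] at hy'
      obtain ⟨c, hc⟩ := Submodule.mem_span_singleton.mp hy'
      obtain ⟨a, rfl⟩ := hsurj c
      have hmem : y - a * x ∈ Ideal.span {b} := by
        rw [← Ideal.Quotient.eq, map_mul, ← hc, smul_eq_mul]
      obtain ⟨z, hz⟩ := Ideal.mem_span_singleton'.mp hmem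
      have hzP : z ∈ P := by
        have h1 : z * b ∈ P := by
          rw [hz]
          exact P.sub_mem hy (P.mul_mem_left a hxP)
        exact (Ideal.IsPrime.mem_or_mem ‹P.IsPrime› h1).resolve_right hbP
      have hy2 : y = a * x + b • z := by
        rw [smul_eq_mul]
        linear_combination -hz
      rw [hy2]
      exact Submodule.add_mem_sup (Ideal.mem_span_singleton'.mpr ⟨a, rfl⟩)
        (Submodule.smul_mem_smul hb hzP)
    exact Submodule.le_of_le_smul_of_le_jacobson_bot (IsNoetherian.noetherian P)
      (by rw [jacobson_eq_maximalIdeal ⊥ bot_ne_top]) hle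
  · rw [Submodule.span_singleton_le_iff_mem]
    exact hxP

/-- **Leaf U2.** An irreducible element is prime.
PROOF. Let `a` be irreducible.  If `b ∣ a` then `a` is associated to `b` (`Irreducible.dvd_symm`/`a = b u`, `u` unit since
`b` is not a unit), so prime.  Otherwise choose a minimal prime `P` over `span {a}` (`Ideal.exists_minimalPrimes_le`,
or any prime minimal among those containing `a`).
* If `b ∉ P`: `P = span {x}` by U1, `x` is prime (`Ideal.span_singleton_prime`, `x ≠ 0` because `a ≠ 0`, `a ∈ P`),
  `x ∣ a`, so `a` is associated to `x` (`a` irreducible, `x` not a unit): `a` is prime.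
* If `b ∈ P`: by Krull's principal ideal theorem (`Ideal.height_le_one_of_isPrincipal_of_mem_minimalPrimes`) `P` has
  height `≤ 1`; `span {b}` is a non zero prime contained in `P`, so `P = span {b}` (otherwise `⊥ < span {b} < P` is a chain
  of length 2) and `b ∣ a`: contradiction.   ALTERNATIVE without Krull: `P / (b)` is a prime of the PID `A / (b)`
  containing the non zero class of `a`, so it is maximal, `P = maximalIdeal A`; hence `maximalIdeal A` is the only prime
  containing `a`, `b ∈ radical (span {a})`, `a ∣ b ^ N`; `b` prime gives `a` associated to a power of `b`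
  (`(Prime.dvd_prime_pow`/`dvd_prime_pow hb`), so `a` is a unit or `b ∣ a`: contradiction. -/
theorem prime_of_irreducible (b : A) (hb : Prime b)
    [IsPrincipalIdealRing (A ⧸ Ideal.span {b})] {a : A} (ha : Irreducible a) : Prime a := by
  have hufd : UniqueFactorizationMonoid A := by
    rw [UniqueFactorizationMonoid.iff_exists_prime_mem_of_isPrime]
    intro I hI hIp
    by_cases hbI : b ∈ I
    · exact ⟨b, hbI, hb⟩
    · have hbm : b ∈ maximalIdeal A := (mem_maximalIdeal b).mpr hb.not_isUnit
      obtain ⟨⟨x, hx⟩⟩ := isPrincipal_of_notMem b hbm I hbI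
      have hx' : I = Ideal.span {x} := hx
      have hx0 : x ≠ 0 := by
        rintro rfl
        apply hI
        rw [hx', Ideal.span_singleton_eq_bot]
      refine ⟨x, ?_, ?_⟩
      · rw [hx']
        exact Ideal.mem_span_singleton_self x
      · rw [← Ideal.span_singleton_prime hx0, ← hx']
        exact hIp
  exact UniqueFactorizationMonoid.irreducible_iff_prime.mp ha

/-- `A` is factorial. -/
theorem ufd_of_quotient (b : A) (hb : Prime b) [IsPrincipalIdealRing (A ⧸ Ideal.span {b})] :
    UniqueFactorizationMonoid A :=
  { (inferInstance : WfDvdMonoid A) with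
    irreducible_iff_prime := fun {_} => ⟨prime_of_irreducible b hb, Prime.irreducible⟩ }

end Fermat.Agent.S36R.Local
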