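import Fermat.Agent.S36R.Local.LocAt
import Fermat.Agent.S36R.Local.UFD

/-!
# S36, route R, local block: the vertical primes of `R_𝔫`; `R_𝔫` is factorial
-/

set_option autoImplicit false

namespace Fermat.Agent.S36R.Local

open Inj IsLocalRing

variable {O K F FA : Type*} [CommRing O] [Field K] [Field F] [Field FA] [Algebra K F] [Algebra K FA]
  [Algebra O F] {D : Lvl K F FA} {q : ℕ} {c : F} {R : Subring F}

theorem Vert_val_eq_one (hR : D.ChartOK O q c R) (𝔫 : Ideal R) {i : Fin 3}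
    (hi : Thru D.W 𝔫 i) {s : R} (hs : s ∉ 𝔫) : (D.W i).valuation (s : F) = 1 :=
  le_antisymm ((ValuationSubring.valuation_le_one_iff _ _).2 (hR.chart.le_W i _ s.2))
    (not_lt.1 fun h => hs (hi s h))

/-- **Leaf V1.** (`z ∈ R_𝔫`: `s z = r`, `s ∉ 𝔫` so `v_i s = 1` (`hi`, `hR.chart.le_W`), `v_i z = v_i r ≤ 1`.) -/
theorem locAt_le_W (hR : D.ChartOK O q c R) (𝔫 : Ideal R) [𝔫.IsPrime] {i : Fin 3}
    (hi : Thru D.W 𝔫 i) (z : locAt 𝔫) : (z : F) ∈ D.W i := by
  obtain ⟨s, hs, hsz⟩ := z.2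
  have h1 : (D.W i).valuation (s : F) = 1 := Vert_val_eq_one hR 𝔫 hi hs
  rw [← ValuationSubring.valuation_le_one_iff]
  have h2 := (ValuationSubring.valuation_le_one_iff _ _).2 (hR.chart.le_W i _ hsz)
  rwa [map_mul, h1, one_mul] at h2

/-- the centre of `W i` on `R_𝔫`. -/
abbrev cen (hR : D.ChartOK O q c R) (𝔫 : Ideal R) [𝔫.IsPrime] {i : Fin 3} (hi : Thru D.W 𝔫 i) :
    Ideal (locAt 𝔫) := centre (locAt 𝔫) (D.W i) (locAt_le_W hR 𝔫 hi)

theorem mem_cen (hR : D.ChartOK O q c R) (𝔫 : Ideal R) [𝔫.IsPrime] {i : Fin 3}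
    (hi : Thru D.W 𝔫 i) (z : locAt 𝔫) : z ∈ cen hR 𝔫 hi ↔ (D.W i).valuation (z : F) < 1 := by
  rw [mem_centre, ValuationSubring.mem_nonunits_iff]

/-- **Leaf V2.** (`v_i (x y) < 1`, `v_i x, v_i y ≤ 1` ⟹ one of them `< 1`; `1 ∉`.) -/
theorem cen_isPrime (hR : D.ChartOK O q c R) (𝔫 : Ideal R) [𝔫.IsPrime] {i : Fin 3}
    (hi : Thru D.W 𝔫 i) : (cen hR 𝔫 hi).IsPrime := by
  rw [Ideal.isPrime_iff]
  refine ⟨?_, ?_⟩
  · rw [Ideal.ne_top_iff_one, mem_cen]
    simp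
  · intro x y hxy
    rw [mem_cen] at hxy
    rw [mem_cen, mem_cen]
    by_contra hcon
    push Not at hcon
    have hx : (D.W i).valuation (x : F) = 1 :=
      le_antisymm ((ValuationSubring.valuation_le_one_iff _ _).2 (locAt_le_W hR 𝔫 hi x)) hcon.1
    have hy : (D.W i).valuation (y : F) = 1 :=
      le_antisymm ((ValuationSubring.valuation_le_one_iff _ _).2 (locAt_le_W hR 𝔫 hi y)) hcon.2
    rw [Subring.coe_mul, map_mul, hx, hy, one_mul] at hxy
    exact lt_irrefl _ hxy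

theorem Vert_val_eq_one_of_notMem_cen (hR : D.ChartOK O q c R) (𝔫 : Ideal R) [𝔫.IsPrime]
    {i : Fin 3} (hi : Thru D.W 𝔫 i) {x : locAt 𝔫} (hx : x ∉ cen hR 𝔫 hi) :
    (D.W i).valuation (x : F) = 1 := by
  rw [mem_cen] at hx
  exact le_antisymm ((ValuationSubring.valuation_le_one_iff _ _).2 (locAt_le_W hR 𝔫 hi x))
    (not_lt.1 hx)

theorem Vert_dvd_of_cg (hR : D.ChartOK O q c R) (𝔫 : Ideal R) [𝔫.IsPrime]
    {i : Fin 3} (hi : Thru D.W 𝔫 i) {x y : locAt 𝔫} (hy : y ∉ cen hR 𝔫 hi) {a : F}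
    (ha : a ∈ locAt 𝔫) (hc : Cg (D.W i) ((x : F) / y) a) :
    Ideal.Quotient.mk (cen hR 𝔫 hi) y ∣ Ideal.Quotient.mk (cen hR 𝔫 hi) x := by
  have hvy := Vert_val_eq_one_of_notMem_cen hR 𝔫 hi hy
  have hy0 : (y : F) ≠ 0 := by
    intro h
    rw [h, map_zero] at hvy
    exact zero_ne_one hvy
  refine ⟨Ideal.Quotient.mk _ ⟨a, ha⟩, ?_⟩
  rw [← map_mul, Ideal.Quotient.eq, mem_cen]
  have e : ((x - y * ⟨a, ha⟩ : locAt 𝔫) : F) = (y : F) * ((x : F) / y - a) := by
    push_cast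
    field_simp
  rw [e, map_mul, hvy, one_mul]
  exact hc

/-- **Leaf V3.** `R_𝔫 / p_i R_𝔫` is a principal ideal ring.
PROOF. `Dbar := locAt 𝔫 ⧸ cen hR 𝔫 hi` is a domain (`cen_isPrime`), noetherian (`hR.noeth`, `isNoetherianRing_locAt`, quotient).  It is a
valuation ring: for `x y : locAt 𝔫` not in `cen` put `z := x / y`, a unit of `W i`; `hP.vr i hi z`: if `z ≡ a` then `x - a y ∈ cen`
(`v_i (x - a y) = v_i y * v_i (z - a) < 1`), so `ybar ∣ xbar`; if `z⁻¹ ≡ a` then `xbar ∣ ybar`.  (`ValuationRing.iff_dvd_total`, `IsTotal`;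
classes which are `0` are trivial.)  A valuation ring is Bézout (`ValuationRing.instIsBezout`/`inferInstance`) and a noetherian
Bézout domain is principal (`(IsBezout.TFAE (R := Dbar)).out 0 1`). -/
theorem quot_pid (hR : D.ChartOK O q c R) (𝔫 : Ideal R) [𝔫.IsPrime] (hP : D.PointOK R 𝔫) {i : Fin 3}
    (hi : Thru D.W 𝔫 i) : IsPrincipalIdealRing (locAt 𝔫 ⧸ cen hR 𝔫 hi) := by
  have hprime := cen_isPrime hR 𝔫 hi
  have hn1 := hR.noeth
  have hn2 := isNoetherianRing_locAt 𝔫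
  have hnoeth : IsNoetherianRing (locAt 𝔫 ⧸ cen hR 𝔫 hi) := inferInstance
  have hval : ValuationRing (locAt 𝔫 ⧸ cen hR 𝔫 hi) := by
    rw [ValuationRing.iff_dvd_total]
    refine ⟨fun X Y => ?_⟩
    obtain ⟨x, rfl⟩ := Ideal.Quotient.mk_surjective X
    obtain ⟨y, rfl⟩ := Ideal.Quotient.mk_surjective Y
    by_cases hx : x ∈ cen hR 𝔫 hi
    · right
      rw [Ideal.Quotient.eq_zero_iff_mem.2 hx]
      exact dvd_zero _
    by_cases hy : y ∈ cen hR 𝔫 hi
    · left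
      rw [Ideal.Quotient.eq_zero_iff_mem.2 hy]
      exact dvd_zero _
    have hvx := Vert_val_eq_one_of_notMem_cen hR 𝔫 hi hx
    have hvy := Vert_val_eq_one_of_notMem_cen hR 𝔫 hi hy
    have hz : (x : F) / y ∈ D.W i := by
      rw [← ValuationSubring.valuation_le_one_iff, map_div₀, hvx, hvy, div_one]
    rcases hP.vr i hi _ hz with ⟨a, ha, hc⟩ | ⟨a, ha, hc⟩
    · right
      exact Vert_dvd_of_cg hR 𝔫 hi hy ha hc
    · left
      rw [inv_div] at hc
      exact Vert_dvd_of_cg hR 𝔫 hi hx ha hc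
  exact ((IsBezout.TFAE (R := locAt 𝔫 ⧸ cen hR 𝔫 hi)).out 0 1).1 hnoeth

theorem Vert_natCast_mem (hR : D.ChartOK O q c R) : (q : F) ∈ R := by
  have h := hR.chart.algebraMap_mem (q : O)
  rwa [map_natCast] at h

theorem Vert_sat_pow (hR : D.ChartOK O q c R) (k : ℕ) : ∀ y : F, (q : F) ^ k * y ∈ R →
    (∀ i, y ∈ D.W i) → y ∈ R := by
  induction k with
  | zero =>
    intro y hy _
    simpa using hy
  | succ k ih =>
    intro y hy hW
    have h1 : (q : F) * y ∈ R := by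
      apply ih
      · rw [← mul_assoc, ← pow_succ]
        exact hy
      · intro i
        exact mul_mem (hR.chart.le_W i _ (Vert_natCast_mem hR)) (hW i)
    apply hR.chart.sat y _ hW
    rw [map_natCast]
    exact h1

/-- **Leaf V4.** `R_𝔫 = R_𝔫[1/q] ∩ ⋂_{i through 𝔫} W i`.
PROOF. `s' (q ^ k z) = r ∈ R`, `s' ∉ 𝔫`.  `a` from `Inj.exists_vanish_off hR.chart hD.vert 𝔫 k`.  `y := a s' z`: `q ^ k y ∈ R`;
`y ∈ W i` for `i` through `𝔫` (`hW`), and for the other `i`: `v_i y = v_i a * v_i r / v_i q ^ k ≤ 1`.  Then `y ∈ R` by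
induction on `k` from `hR.chart.sat` (`algebraMap O F (q : O) = (q : F)`: `map_natCast`; all `q ^ l y` are in all `W i`). -/
theorem locAt_sat (hD : D.Good O q) (hR : D.ChartOK O q c R) (𝔫 : Ideal R) [𝔫.IsPrime] (z : F)
    (k : ℕ) (hz : (q : F) ^ k * z ∈ locAt 𝔫) (hW : ∀ i, Thru D.W 𝔫 i → z ∈ D.W i) :
    z ∈ locAt 𝔫 := by
  obtain ⟨s', hs', hr⟩ := hz
  obtain ⟨a, ha, hav⟩ := Inj.exists_vanish_off hR.chart hD.vert 𝔫 k
  refine ⟨a * s', Ideal.IsPrime.mul_notMem ‹_› ha hs', ?_⟩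
  have hq0 : (q : F) ≠ 0 := by
    have h := hD.vert.pi_ne
    rwa [map_natCast] at h
  have hkey : (q : F) ^ k * (((a * s' : R) : F) * z) = (a : F) * ((s' : F) * ((q : F) ^ k * z)) := by
    push_cast
    ring
  apply Vert_sat_pow hR k
  · rw [hkey]
    exact mul_mem a.2 hr
  · intro i
    by_cases hi : Thru D.W 𝔫 i
    · exact mul_mem (hR.chart.le_W i _ (a * s' : R).2) (hW i hi)
    · have h1 := hav i hi
      rw [map_natCast] at h1
      have h2 : (D.W i).valuation ((s' : F) * ((q : F) ^ k * z)) ≤ 1 :=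
        (ValuationSubring.valuation_le_one_iff _ _).2 (hR.chart.le_W i _ hr)
      have h3 := congrArg (D.W i).valuation hkey
      rw [map_mul, map_mul _ (a : F), map_pow] at h3
      have h4 : (D.W i).valuation (q : F) ^ k ≠ 0 :=
        pow_ne_zero _ ((Valuation.ne_zero_iff _).2 hq0)
      rw [← ValuationSubring.valuation_le_one_iff]
      have h5 : (D.W i).valuation (q : F) ^ k * (D.W i).valuation (((a * s' : R) : F) * z) ≤
          (D.W i).valuation (q : F) ^ k * 1 := by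
        rw [h3]
        exact mul_le_mul' h1 h2
      exact (mul_le_mul_iff_right₀ (zero_lt_iff.2 h4)).1 h5

/-- **Leaf V5.** On a point which lies only on the component `i ≠ 1` (multiplicity one) `p_i R_𝔫 = (q)`.
PROOF. `⊇`: `hD.vert.pi_lt`.  `⊆`: `z ∈ R_𝔫`, `v_i z < 1`, `z ≠ 0`.  By `hD.eW0`/`hD.eW2` (`i = 0` or `2`: `fin_cases i`)
`z / q ^ x` is a unit of `W i`; `v_i z < 1` and `v_i q < 1` force `x ≥ 1`, so `z / q ∈ W i`; `locAt_sat` (`k = 1`) gives
`z / q ∈ R_𝔫`. -/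
theorem cen_eq_span_q (hD : D.Good O q) (hR : D.ChartOK O q c R) (𝔫 : Ideal R) [𝔫.IsPrime]
    {i : Fin 3} (hi : Thru D.W 𝔫 i) (hi1 : i ≠ 1) (huniq : ∀ j, Thru D.W 𝔫 j → j = i) :
    cen hR 𝔫 hi = Ideal.span {(q : locAt 𝔫)} := by
  have hq0 : (q : F) ≠ 0 := by
    have h := hD.vert.pi_ne
    rwa [map_natCast] at h
  have hqlt : (D.W i).valuation (q : F) < 1 := by
    have h := hD.vert.pi_lt i
    rwa [map_natCast] at h
  have hvq0 : (D.W i).valuation (q : F) ≠ 0 := (Valuation.ne_zero_iff _).2 hq0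
  have he : ∀ z : F, z ≠ 0 → ∃ x : ℤ, IsU (D.W i) (z / (q : F) ^ x) := by
    have h02 : i = 0 ∨ i = 2 := by
      fin_cases i
      · exact Or.inl rfl
      · exact absurd rfl hi1
      · exact Or.inr rfl
    rcases h02 with rfl | rfl
    · exact hD.eW0
    · exact hD.eW2
  apply le_antisymm
  · intro z hz
    rw [mem_cen] at hz
    by_cases hz0 : (z : F) = 0
    · have : z = 0 := Subtype.ext hz0
      rw [this]
      exact zero_mem _
    obtain ⟨x, hx⟩ := he z hz0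
    have hvz : (D.W i).valuation (z : F) = (D.W i).valuation (q : F) ^ x := by
      unfold IsU at hx
      rw [map_div₀, map_zpow₀, div_eq_one_iff_eq (zpow_ne_zero _ hvq0)] at hx
      exact hx
    have hdiv : (z : F) / (q : F) ∈ D.W i := by
      rw [← ValuationSubring.valuation_le_one_iff, map_div₀, hvz]
      rcases le_or_gt x 0 with hx0 | hx0
      · exfalso
        obtain ⟨m, hm⟩ := Int.eq_ofNat_of_zero_le (neg_nonneg.2 hx0)
        have hxm : x = -(m : ℤ) := by omega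
        rw [hvz, hxm, zpow_neg, zpow_natCast] at hz
        have h1 : (D.W i).valuation (q : F) ^ m ≤ 1 := pow_le_one' hqlt.le m
        have h2 : 1 ≤ ((D.W i).valuation (q : F) ^ m)⁻¹ :=
          (one_le_inv₀ (zero_lt_iff.2 (pow_ne_zero _ hvq0))).2 h1
        exact absurd hz (not_lt.2 h2)
      · obtain ⟨m, hm⟩ := Int.eq_ofNat_of_zero_le (show 0 ≤ x - 1 by omega)
        have hxm : x = (m : ℤ) + 1 := by omega
        rw [hxm, zpow_add_one₀ hvq0, zpow_natCast, mul_div_assoc, div_self hvq0, mul_one]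
        exact pow_le_one' hqlt.le m
    have hmem : (z : F) / (q : F) ∈ locAt 𝔫 := by
      apply locAt_sat hD hR 𝔫 _ 1
      · rw [pow_one, mul_div_cancel₀ _ hq0]
        exact z.2
      · intro j hj
        rw [huniq j hj]
        exact hdiv
    rw [Ideal.mem_span_singleton']
    refine ⟨⟨_, hmem⟩, Subtype.ext ?_⟩
    show (z : F) / (q : F) * ((q : locAt 𝔫) : F) = z
    rw [Subring.coe_natCast, div_mul_cancel₀ _ hq0]
  · rw [Ideal.span_singleton_le_iff_mem, mem_cen, Subring.coe_natCast]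
    exact hqlt

theorem Vert_prime_gen_of_cen_eq (hR : D.ChartOK O q c R) (𝔫 : Ideal R)
    [𝔫.IsPrime] (hP : D.PointOK R 𝔫) {i : Fin 3} (hi : Thru D.W 𝔫 i) (b : locAt 𝔫) (hb0 : b ≠ 0)
    (hb : cen hR 𝔫 hi = Ideal.span {b}) :
    Prime b ∧ IsPrincipalIdealRing (locAt 𝔫 ⧸ Ideal.span {b}) := by
  have h1 := cen_isPrime hR 𝔫 hi
  have h2 := quot_pid hR 𝔫 hP hi
  rw [hb] at h1 h2
  exact ⟨(Ideal.span_singleton_prime hb0).1 h1, h2⟩

/-- **Leaf V6.** There is a prime element `b` of `R_𝔫` with `R_𝔫 / (b)` principal.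
PROOF. `hP.inc`.  If `W 1` passes through `𝔫`: `b` from `hP.prin`, `cen hR 𝔫 h1 = span {b}`.  Otherwise exactly one `i ≠ 1`
passes: `cen_eq_span_q`.  In both cases `span {b} = cen ..` is prime (`cen_isPrime`), `b ≠ 0` (for `hP.prin`: `q ∈ cen`, `q ≠ 0` by
`hD.vert.pi_ne`, so `cen ≠ ⊥`), so `b` is prime (`Ideal.span_singleton_prime`), and `quot_pid` (rewrite along the equality
of ideals: `▸`, or `Ideal.quotEquivOfEq` + `IsPrincipalIdealRing.of_surjective`). -/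
theorem exists_prime_gen (hD : D.Good O q) (hR : D.ChartOK O q c R) (𝔫 : Ideal R) [𝔫.IsPrime]
    (hP : D.PointOK R 𝔫) :
    ∃ b : locAt 𝔫, Prime b ∧ IsPrincipalIdealRing (locAt 𝔫 ⧸ Ideal.span {b}) := by
  have hq0 : (q : F) ≠ 0 := by
    have := hD.vert.pi_ne
    rwa [map_natCast] at this
  by_cases h1 : Thru D.W 𝔫 1
  · obtain ⟨b, hbmem, hb0, hbv, hdiv⟩ := hP.prin h1
    refine ⟨⟨b, hbmem⟩, Vert_prime_gen_of_cen_eq hR 𝔫 hP h1 ⟨b, hbmem⟩
      (fun h => hb0 (congrArg Subtype.val h)) ?_⟩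
    apply le_antisymm
    · intro z hz
      rw [mem_cen] at hz
      rw [Ideal.mem_span_singleton]
      refine ⟨⟨_, hdiv z z.2 hz⟩, ?_⟩
      apply Subtype.ext
      show (z : F) = b * ((z : F) / b)
      field_simp
    · rw [Ideal.span_singleton_le_iff_mem, mem_cen]
      exact hbv
  · rcases hP.inc with ⟨i, hi, huniq⟩ | hall
    · have hi1 : i ≠ 1 := by
        rintro rfl
        exact h1 hi
      refine ⟨(q : locAt 𝔫), Vert_prime_gen_of_cen_eq hR 𝔫 hP hi _ ?_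
        (cen_eq_span_q hD hR 𝔫 hi hi1 huniq)⟩
      intro h
      apply hq0
      have := congrArg Subtype.val h
      simpa using this
    · exact absurd (hall 1) h1

/-- `R_𝔫` is factorial. -/
theorem ufd_locAt (hD : D.Good O q) (hR : D.ChartOK O q c R) (𝔫 : Ideal R) [𝔫.IsPrime]
    (hP : D.PointOK R 𝔫) : UniqueFactorizationMonoid (locAt 𝔫) := by
  obtain ⟨b, hb, hpid⟩ := exists_prime_gen hD hR 𝔫 hP
  have := hR.noeth
  have := isNoetherianRing_locAt 𝔫
  have := isLocalRing_locAt 𝔫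
  exact ufd_of_quotient b hb

end Fermat.Agent.S36R.Local
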